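/-
Programme T1B (row 38 / S44), cell (I) NODE/PHI, leaf LEVEL-MODEL (helper69): the EASY fields of
`Node45.Phi.LevelHyp` and the side conditions of `Level69/Node.lean`, for a chart `B` over `W` with
an injective expansion `e : B →+* K((q))` (`K = Frac W`), `O` a `W`-algebra inside a field `L ⊇ K`.

* `isNoetherianRing_tensor` : `noeth0` (`B` of finite type over `W`, `O` noetherian);
* `isDomain_tensor` : `dom0` (= `InjLaurent69.isDomain_int_tensor`);
* `tmul_one_ne_zero` : `a ⊗ 1 ≠ 0` for `a ≠ 0` (the hypothesis `hπ0` of `Node.node_of_bc`);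
* `ptIdeal_ne_bot_of_exp` : `ptIdeal q ≠ ⊥` for every `O`-point `q` as soon as some `e b` has a
  nonzero coefficient in a nonzero degree (the hypothesis `hker` of `Node.node_of_bc`).
-/
import Mathlib
import Fermat.Agent.T1B.InjLaurent69.Basic
import Fermat.Agent.T1.PtInvLine75

set_option autoImplicit false
set_option linter.unusedSectionVars false

open TensorProduct

namespace Fermat.Agent.T1B.Level69.Easy

open Fermat.Agent.T1.PtLine75 Fermat.Agent.T1B.InjLaurent69 ModularCurve

/-- `noeth0`. -/
theorem isNoetherianRing_tensor {W O B : Type*} [CommRing W] [CommRing O] [IsNoetherianRing O]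
    [CommRing B] [Algebra W O] [Algebra W B] [Algebra.FiniteType W B] :
    IsNoetherianRing (O ⊗[W] B) :=
  Algebra.FiniteType.isNoetherianRing O (O ⊗[W] B)

section Exp

variable {W K B : Type*} [CommRing W] [Field K] [CommRing B] [Algebra W K] [IsFractionRing W K]
  [Algebra W B] (e : B →+* LaurentSeries K)
  (he : ∀ w : W, e (algebraMap W B w) = HahnSeries.C (algebraMap W K w))
  (L : Type*) {O : Type*} [Field L] [CommRing O] [Algebra K L] [Algebra W L] [IsScalarTower W K L]
  [Algebra W O] [Algebra O L] [IsScalarTower W O L]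

include e he in
/-- `dom0`. -/
theorem isDomain_tensor [Module.Flat W B] (hO : Function.Injective (algebraMap O L))
    (hinj : Function.Injective e) : IsDomain (O ⊗[W] B) :=
  isDomain_int_tensor (L := L) (O := O) e he hO hinj

include e he in
/-- `a ⊗ 1 ≠ 0` for `a ≠ 0`. -/
theorem tmul_one_ne_zero (hO : Function.Injective (algebraMap O L)) {a : O} (ha : a ≠ 0) :
    a ⊗ₜ[W] (1 : B) ≠ 0 := by
  intro h0
  have h1 := congrArg (intExp (L := L) (O := O) e he) h0
  rw [intExp_tmul, map_one, map_one, mul_one, map_zero] at h1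
  have h2 : algebraMap O L a = 0 := HahnSeries.C_injective (by rw [h1, map_zero])
  exact ha (hO (by rw [h2, map_zero]))

end Exp

section Pt

universe u

/-- `ptIdeal q ≠ ⊥` as soon as some expansion `e b` is not constant. -/
theorem ptIdeal_ne_bot_of_exp {W : Type u} {K : Type*} {B : Type u} [CommRing W] [Field K]
    [CommRing B] [Algebra W K] [IsFractionRing W K] [Algebra W B] (e : B →+* LaurentSeries K)
    (he : ∀ w : W, e (algebraMap W B w) = HahnSeries.C (algebraMap W K w))
    (L : Type*) {O : Type u} [Field L] [CommRing O] [Algebra K L] [Algebra W L]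
    [IsScalarTower W K L] [Algebra W O] [Algebra O L] [IsScalarTower W O L]
    (b : B) (n : ℤ) (hn : n ≠ 0) (hb : (e b).coeff n ≠ 0)
    (q : B →ₐ[W] O) : ptIdeal q ≠ ⊥ := by
  refine Fermat.Agent.T1.PtInvLine75.ptIdeal_ne_bot q b ?_
  intro h0
  have h1 := congrArg (fun x => (intExp (L := L) (O := O) e he x).coeff n) h0
  simp only [map_sub, intExp_tmul, map_one, one_mul, mul_one, map_zero, HahnSeries.coeff_sub,
    HahnSeries.coeff_zero, coeffMap_coeff] at h1
  rw [HahnSeries.C_apply, HahnSeries.coeff_single_of_ne hn, sub_zero] at h1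
  exact hb ((algebraMap K L).injective (by rw [h1, map_zero]))

end Pt

end Fermat.Agent.T1B.Level69.Easy
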