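/-
Programme T1B (row 38 / S44), cell (I) NODE/PHI, leaf LEVEL-MODEL item (c) (helper69, for helper45's
`Node45/Phi.lean`):  **the fields `node` and `hSm1` of `Phi.LevelHyp` from a base-change hypothesis
`NodeBC.BCHyp` and the thickness-one model facts on the source.**

`W` a base ring, `O` a DVR over `W` with uniformiser `π`, `B` a chart over `W`, `S' := O ⊗[W] B`.
`f : S → S'` a ring map with `H : BCHyp f π₀ (π ⊗ 1) e` (isomorphism modulo `π₀`, `π ⊗ 1`;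
`f π₀ = (π ⊗ 1)^e · unit`).  In the application `S = O₀ ⊗[W] B` (`O₀` the DVR of the inertial number
field with the same residue field as `O`, `π₀ = p ⊗ 1`, `f = NodalBC53.Fibre.tensorMap`,
`H = NodeBCTensor.bcHyp_tensor hBC`) or any ring isomorphic to it (`bcHyp_comp_equiv`).

* `bcHyp_comp_equiv` : precomposition with a ring isomorphism;
* `comap_isMaximal_of_bcHyp` : the contraction of a maximal ideal containing `π'` is maximal;
* `redIdeal_eq_ptMax`, `exists_unit_pow_of_irreducible` : vocabulary (`Desc43.IntModel.redIdeal` vs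
  `PtInv75.ptMax`, the `hdvr` hypothesis of `PtInv75`);
* **`invertible_ptIdeal_of_bc`** : an `O`-point `q` of the chart whose reduction contracts to a point
  of `S` with the smoothness property (`NodalCL13.SmoothAt`-shape) has an invertible ideal;
* **`node_of_bc`** : the field `node` of `Phi.LevelHyp` (with `IsNode 𝔫' := π ⊗ 1 ∈ 𝔫' ∧ IsNode₀ (𝔫' ∩ S)`),
  from thickness-one node data at the nodes of `S` and smoothness off the nodes;
* **`hSm1_of_bc`** : the field `hSm1` (points reducing into `z = 0`, `z` in the image of `S`, where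
  all points of `S` are smooth);
* `node_of_bc_tensor`, `hSm1_of_bc_tensor` : the case `S = O₀ ⊗[W] B`, `f = tensorMap`, from
  `hBC : BCHyp (algebraMap O₀ O) π₀ π e` and `τO g` fixing the image of `O₀`.
-/
import Mathlib
import Fermat.Agent.T1B.Node45.NodeBC
import Fermat.Agent.T1B.Node45.NodeBCTensor
import Fermat.Agent.T1B.Node45.Ext2
import Fermat.Agent.T1B.NodalBC23.HubPt

set_option autoImplicit false
set_option linter.unusedSectionVars false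
set_option linter.style.haveILetI false

open TensorProduct

namespace Fermat.Agent.T1B.Level69.Node

open Fermat.Agent.T1.PtLine75 Fermat.Agent.T1.PtInv75 Fermat.Agent.T1.Peu37.NodeClassGroup
open Fermat.Agent.T1B.Desc43.IntModel Fermat.Agent.T1B.Node45.NodeBC
open Fermat.Agent.T1B.Node45.NodeBCTensor Fermat.Agent.T1B.NodalBC53.Fibre

universe u

/-! ### Generalities on `BCHyp` -/

section BC

variable {S₀ S S' : Type*} [CommRing S₀] [CommRing S] [CommRing S']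
  {f : S →+* S'} {π : S} {π' : S'} {e : ℕ}

/-- Precomposition of `BCHyp` with a ring isomorphism. -/
theorem bcHyp_comp_equiv (H : BCHyp f π π' e) (σ : S₀ ≃+* S) :
    BCHyp (f.comp (σ : S₀ →+* S)) (σ.symm π) π' e where
  e_pos := H.e_pos
  map_pi := by
    obtain ⟨u, hu, h⟩ := H.map_pi
    refine ⟨u, hu, ?_⟩
    rw [RingHom.comp_apply, RingHom.coe_coe, σ.apply_symm_apply, h]
  surj := fun a' => by
    obtain ⟨a, c, h⟩ := H.surj a'
    refine ⟨σ.symm a, c, ?_⟩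
    rw [RingHom.comp_apply, RingHom.coe_coe, σ.apply_symm_apply, h]
  inj := fun a h => by
    rw [RingHom.comp_apply, RingHom.coe_coe] at h
    obtain ⟨w, hw⟩ := H.inj _ h
    refine ⟨σ.symm w, ?_⟩
    rw [← map_mul, ← hw, σ.symm_apply_apply]

/-- The contraction of a maximal ideal containing `π'` is maximal (`S / π ≅ S' / π'`). -/
theorem comap_isMaximal_of_bcHyp (H : BCHyp f π π' e) (𝔫' : Ideal S') [h𝔫 : 𝔫'.IsMaximal]
    (hπ : π' ∈ 𝔫') : (𝔫'.comap f).IsMaximal := by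
  rw [Ideal.isMaximal_iff]
  refine ⟨?_, ?_⟩
  · rw [Ideal.mem_comap, map_one]
    exact (Ideal.ne_top_iff_one 𝔫').1 h𝔫.ne_top
  · intro J x hJ hx hxJ
    rw [Ideal.mem_comap] at hx
    obtain ⟨y', i, hi, hyi⟩ := h𝔫.exists_inv hx
    obtain ⟨y, c, hc⟩ := H.surj y'
    have hmem : y * x - 1 ∈ 𝔫'.comap f := by
      rw [Ideal.mem_comap]
      have : f (y * x - 1) = -(π' * (c * f x) + i) := by
        rw [map_sub, map_mul, map_one, ← hyi, hc]; ring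
      rw [this]
      exact 𝔫'.neg_mem (𝔫'.add_mem (𝔫'.mul_mem_right _ hπ) hi)
    have h1 : (1 : S) = y * x - (y * x - 1) := by ring
    rw [h1]
    exact J.sub_mem (J.mul_mem_left y hxJ) (hJ hmem)

theorem pi_mem_comap_of_bcHyp (H : BCHyp f π π' e) (𝔫' : Ideal S') (hπ : π' ∈ 𝔫') :
    π ∈ 𝔫'.comap f := by
  rw [Ideal.mem_comap]
  obtain ⟨d, hd⟩ := H.dvd_map_pi
  rw [hd]
  exact 𝔫'.mul_mem_right d hπ

/-- Replacing `π` by an associate. -/
theorem bcHyp_of_associated (H : BCHyp f π π' e) {π₁ : S} (h : Associated π π₁) :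
    BCHyp f π₁ π' e where
  e_pos := H.e_pos
  map_pi := by
    obtain ⟨u, hu, hπ⟩ := H.map_pi
    obtain ⟨v, hv⟩ := h
    refine ⟨u * f (v : S), hu.mul ((v.isUnit).map f), ?_⟩
    rw [← hv, map_mul, hπ]
    ring
  surj := H.surj
  inj := fun a ha => h.dvd_iff_dvd_left.1 (H.inj a ha)

end BC

/-! ### Vocabulary -/

section Voc

variable {W O B : Type u} [CommRing W] [CommRing O] [IsDomain O] [IsDiscreteValuationRing O]
  [CommRing B] [Algebra W O] [Algebra W B]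

theorem exists_unit_pow_of_irreducible {π : O} (hirr : Irreducible π) (r : O) (hr : r ≠ 0) :
    ∃ (k : ℕ) (v : Oˣ), r = π ^ k * v := by
  obtain ⟨n, u, h⟩ := IsDiscreteValuationRing.eq_unit_mul_pow_irreducible hr hirr
  exact ⟨n, u, by rw [h, mul_comm]⟩

theorem redIdeal_eq_ptMax {π : O} (hirr : Irreducible π) (q : B →ₐ[W] O) :
    redIdeal O q = ptMax π (ptEval q) := by
  ext x
  rw [mem_redIdeal, hirr.maximalIdeal_eq]
  rfl

theorem pi_tmul_mem_redIdeal {π : O} (hirr : Irreducible π) (q : B →ₐ[W] O) :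
    π ⊗ₜ[W] (1 : B) ∈ redIdeal O q :=
  tmul_one_mem_redIdeal O q (by rw [hirr.maximalIdeal_eq]; exact Ideal.mem_span_singleton_self π)

end Voc

/-! ### Smooth points -/

section Smooth

variable {W O B : Type u} [CommRing W] [CommRing O] [IsDomain O] [IsDiscreteValuationRing O]
  [CommRing B] [Algebra W O] [Algebra W B] [IsDomain (O ⊗[W] B)] [IsNoetherianRing (O ⊗[W] B)]
  {S : Type*} [CommRing S]

/-- **SMOOTH POINTS.**  An `O`-point of the chart whose reduction contracts to a smooth point of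
`S` has an invertible ideal. -/
theorem invertible_ptIdeal_of_bc (f : S →+* O ⊗[W] B) {π₀ : S} {π : O} (hirr : Irreducible π)
    (hdvd : π ⊗ₜ[W] (1 : B) ∣ f π₀)
    (hsurj : ∀ s' : O ⊗[W] B, ∃ (s : S) (c : O ⊗[W] B), s' = f s + π ⊗ₜ[W] (1 : B) * c)
    (q : B →ₐ[W] O) (hker : ptIdeal q ≠ ⊥)
    (hsm : ∃ s ∈ (redIdeal O q).comap f, ∀ y ∈ (redIdeal O q).comap f,
      ∃ d : S, d ∉ (redIdeal O q).comap f ∧ d * y ∈ Ideal.span {π₀, s}) :
    Module.Invertible (O ⊗[W] B) (ptIdeal q) := by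
  have hsm' := smoothAt_baseChange f hdvd hsurj (redIdeal O q) (pi_tmul_mem_redIdeal hirr q) hsm
  refine Fermat.Agent.T1B.NodalBC23.HubPt.invertible_ptIdeal_of_smoothAt π hirr.ne_zero
    (exists_unit_pow_of_irreducible hirr) hirr.not_isUnit q hker ?_
  rw [← redIdeal_eq_ptMax hirr q]
  exact hsm'

end Smooth

/-! ### The fields `node` and `hSm1` -/

section Node

variable {W O B : Type u} [CommRing W] [CommRing O] [IsDomain O] [IsDiscreteValuationRing O]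
  [CommRing B] [Algebra W O] [Algebra W B] [IsDomain (O ⊗[W] B)] [IsNoetherianRing (O ⊗[W] B)]
  {S : Type*} [CommRing S] [IsDomain S]

theorem algebraMap_loc_pi (𝔫 : Ideal (O ⊗[W] B)) [𝔫.IsPrime] (π : O) :
    algebraMap O (Localization.AtPrime 𝔫) π =
      algebraMap (O ⊗[W] B) (Localization.AtPrime 𝔫) (π ⊗ₜ[W] (1 : B)) := by
  rw [IsScalarTower.algebraMap_apply O (O ⊗[W] B) (Localization.AtPrime 𝔫),
    Algebra.TensorProduct.algebraMap_apply, Algebra.algebraMap_self, RingHom.id_apply]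

/-- **The field `node` of `Phi.LevelHyp`**, from `BCHyp`, thickness-one node data at the nodes of
`S` and the smoothness property off the nodes. -/
theorem node_of_bc (f : S →+* O ⊗[W] B) {π₀ : S} {π : O} {e : ℕ}
    (H : BCHyp f π₀ (π ⊗ₜ[W] (1 : B)) e) (hirr : Irreducible π) (hπ0 : π ⊗ₜ[W] (1 : B) ≠ 0)
    {G : Type*} (τO : G → O ≃ₐ[W] O)
    (hfix : ∀ (g : G) (q : B →ₐ[W] O) (s : S),
      ptEval ((τO g : O →ₐ[W] O).comp q) (f s) = τO g (ptEval q (f s)))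
    (hker : ∀ q : B →ₐ[W] O, ptIdeal q ≠ ⊥)
    (IsNode₀ : Ideal S → Prop)
    (hN : ∀ (𝔫 : Ideal S) [𝔫.IsMaximal], π₀ ∈ 𝔫 → IsNode₀ 𝔫 →
      ∃ (v₁ v₂ : Localization.AtPrime 𝔫 → ℕ) (P₁ P₂ : Ideal (Localization.AtPrime 𝔫)) (x y : S),
        NodeData (Localization.AtPrime 𝔫) v₁ v₂ P₁ P₂ (algebraMap S _ π₀) (algebraMap S _ x)
          (algebraMap S _ y) 1)
    (hS : ∀ (𝔫 : Ideal S), 𝔫.IsMaximal → π₀ ∈ 𝔫 → ¬ IsNode₀ 𝔫 →
      ∃ s ∈ 𝔫, ∀ y ∈ 𝔫, ∃ d : S, d ∉ 𝔫 ∧ d * y ∈ Ideal.span {π₀, s}) :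
    ∃ IsNode : Ideal (O ⊗[W] B) → Prop,
      (∀ q : B →ₐ[W] O, ¬ IsNode (redIdeal O q) → Module.Invertible (O ⊗[W] B) (ptIdeal q)) ∧
      ∀ (𝔫 : Ideal (O ⊗[W] B)) [𝔫.IsMaximal], IsNode 𝔫 →
        ∃ (v₁ v₂ : Localization.AtPrime 𝔫 → ℕ) (P₁ P₂ : Ideal (Localization.AtPrime 𝔫))
          (X Y : O ⊗[W] B),
          (∀ (g : G) (q : B →ₐ[W] O),
            ptEval ((τO g : O →ₐ[W] O).comp q) X = τO g (ptEval q X)) ∧
          NodeData (Localization.AtPrime 𝔫) v₁ v₂ P₁ P₂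
            (algebraMap O (Localization.AtPrime 𝔫) π)
            (algebraMap (O ⊗[W] B) (Localization.AtPrime 𝔫) X)
            (algebraMap (O ⊗[W] B) (Localization.AtPrime 𝔫) Y) e := by
  refine ⟨fun 𝔫' => π ⊗ₜ[W] (1 : B) ∈ 𝔫' ∧ IsNode₀ (𝔫'.comap f), ?_, ?_⟩
  · intro q hq
    have hπq := pi_tmul_mem_redIdeal hirr q
    haveI := redIdeal_isMaximal O q
    have hmax := comap_isMaximal_of_bcHyp H (redIdeal O q) hπq
    have hn0 : ¬ IsNode₀ ((redIdeal O q).comap f) := fun h => hq ⟨hπq, h⟩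
    exact invertible_ptIdeal_of_bc f hirr H.dvd_map_pi H.surj q (hker q)
      (hS _ hmax (pi_mem_comap_of_bcHyp H _ hπq) hn0)
  · rintro 𝔫' h𝔫' ⟨hπ𝔫, hnode⟩
    haveI hmax := comap_isMaximal_of_bcHyp H 𝔫' hπ𝔫
    obtain ⟨v₁, v₂, P₁, P₂, x, y, D⟩ := hN (𝔫'.comap f) (pi_mem_comap_of_bcHyp H _ hπ𝔫) hnode
    obtain ⟨v₁', v₂', P₁', P₂', D'⟩ :=
      exists_nodeData_localization f H hπ0 𝔫' hπ𝔫 (𝔫'.comap f) rfl D
    refine ⟨v₁', v₂', P₁', P₂', f x, f y, fun g q => hfix g q x, ?_⟩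
    rw [algebraMap_loc_pi, ← one_mul e]
    exact D'

end Node

section Sm1

variable {W O B : Type u} [CommRing W] [CommRing O] [IsDomain O] [IsDiscreteValuationRing O]
  [CommRing B] [Algebra W O] [Algebra W B] [IsDomain (O ⊗[W] B)] [IsNoetherianRing (O ⊗[W] B)]
  {S : Type*} [CommRing S]

/-- **The field `hSm1` of `Phi.LevelHyp`** : the points reducing into `b = 0` (`1 ⊗ b = f z`), when
all points of `S` on `π₀ = z = 0` are smooth. -/
theorem hSm1_of_bc (f : S →+* O ⊗[W] B) {π₀ : S} {π : O} {e : ℕ}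
    (H : BCHyp f π₀ (π ⊗ₜ[W] (1 : B)) e) (hirr : Irreducible π)
    (hker : ∀ q : B →ₐ[W] O, ptIdeal q ≠ ⊥)
    (z : S) (b : B) (hz : f z = (1 : O) ⊗ₜ[W] b)
    (hS : ∀ (𝔫 : Ideal S), 𝔫.IsMaximal → π₀ ∈ 𝔫 → z ∈ 𝔫 →
      ∃ s ∈ 𝔫, ∀ y ∈ 𝔫, ∃ d : S, d ∉ 𝔫 ∧ d * y ∈ Ideal.span {π₀, s})
    (q : B →ₐ[W] O) (hq : q b ∈ IsLocalRing.maximalIdeal O) :
    Module.Invertible (O ⊗[W] B) (ptIdeal q) := by
  have hπq := pi_tmul_mem_redIdeal hirr q
  haveI := redIdeal_isMaximal O q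
  have hmax := comap_isMaximal_of_bcHyp H (redIdeal O q) hπq
  have hzq : z ∈ (redIdeal O q).comap f := by
    rw [Ideal.mem_comap, hz, one_tmul_mem_redIdeal_iff]
    exact hq
  exact invertible_ptIdeal_of_bc f hirr H.dvd_map_pi H.surj q (hker q)
    (hS _ hmax (pi_mem_comap_of_bcHyp H _ hπq) hzq)

end Sm1

/-! ### The case `S ≃ O₀ ⊗[W] B` -/

section Tensor

variable {W O₀ O B : Type u} [CommRing W] [CommRing O₀] [CommRing O] [IsDomain O]
  [IsDiscreteValuationRing O] [CommRing B] [Algebra W O₀] [Algebra W O] [Algebra O₀ O]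
  [IsScalarTower W O₀ O] [Algebra W B]

/-- Elements coming from `O₀ ⊗[W] B`, with `O₀` fixed by `τ`, have equivariant evaluations
(`tensorMap` form of `Ext2.ptEval_comp_of_fixed`). -/
theorem ptEval_comp_tensorMap_of_fixed (τ : O ≃ₐ[W] O)
    (hτ : ∀ a : O₀, τ (algebraMap O₀ O a) = algebraMap O₀ O a) (q : B →ₐ[W] O)
    (X₀ : O₀ ⊗[W] B) :
    ptEval ((τ : O →ₐ[W] O).comp q) (tensorMap W O₀ O B X₀) =
      τ (ptEval q (tensorMap W O₀ O B X₀)) := by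
  induction X₀ using TensorProduct.induction_on with
  | zero => simp
  | add x y hx hy => rw [map_add, map_add, map_add, map_add, hx, hy]
  | tmul a b =>
    rw [tensorMap_tmul, ptEval_tmul, ptEval_tmul, map_mul, hτ]
    rfl

variable [IsDomain (O ⊗[W] B)] [IsNoetherianRing (O ⊗[W] B)]
  {S₀ : Type*} [CommRing S₀]

/-- The map `S₀ ≃ O₀ ⊗[W] B → O ⊗[W] B`. -/
noncomputable def mapOfEquiv (σ : (O₀ ⊗[W] B) ≃+* S₀) : S₀ →+* O ⊗[W] B :=
  (tensorMap W O₀ O B).toRingHom.comp (σ.symm : S₀ →+* O₀ ⊗[W] B)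

theorem mapOfEquiv_apply (σ : (O₀ ⊗[W] B) ≃+* S₀) (x : O₀ ⊗[W] B) :
    mapOfEquiv (O := O) σ (σ x) = tensorMap W O₀ O B x := by
  show tensorMap W O₀ O B (σ.symm (σ x)) = _
  rw [σ.symm_apply_apply]

theorem bcHyp_mapOfEquiv (σ : (O₀ ⊗[W] B) ≃+* S₀) {π₀ : O₀} {π : O} {e : ℕ}
    (hBC : BCHyp (algebraMap O₀ O) π₀ π e) :
    BCHyp (mapOfEquiv (O := O) σ) (σ (π₀ ⊗ₜ[W] (1 : B))) (π ⊗ₜ[W] (1 : B)) e :=
  bcHyp_comp_equiv (bcHyp_tensor (W := W) (B := B) hBC) σ.symm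

/-- **The field `node`, chart form**: `S₀` a ring isomorphic to `O₀ ⊗[W] B` (e.g. the chart of the
nodal model over the inertial number field), `hBC` the base-change hypothesis `O₀ → O`, `τO g`
fixing `O₀`. -/
theorem node_of_bc_equiv [IsDomain S₀] (σ : (O₀ ⊗[W] B) ≃+* S₀) {π₀ : O₀} {π : O} {e : ℕ}
    (hBC : BCHyp (algebraMap O₀ O) π₀ π e) (hirr : Irreducible π)
    (hπ0 : π ⊗ₜ[W] (1 : B) ≠ 0)
    {G : Type*} (τO : G → O ≃ₐ[W] O)
    (hτ : ∀ (g : G) (a : O₀), τO g (algebraMap O₀ O a) = algebraMap O₀ O a)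
    (hker : ∀ q : B →ₐ[W] O, ptIdeal q ≠ ⊥)
    (IsNode₀ : Ideal S₀ → Prop)
    (hN : ∀ (𝔫 : Ideal S₀) [𝔫.IsMaximal], σ (π₀ ⊗ₜ[W] (1 : B)) ∈ 𝔫 → IsNode₀ 𝔫 →
      ∃ (v₁ v₂ : Localization.AtPrime 𝔫 → ℕ) (P₁ P₂ : Ideal (Localization.AtPrime 𝔫))
        (x y : S₀),
        NodeData (Localization.AtPrime 𝔫) v₁ v₂ P₁ P₂
          (algebraMap S₀ _ (σ (π₀ ⊗ₜ[W] (1 : B)))) (algebraMap S₀ _ x) (algebraMap S₀ _ y) 1)
    (hS : ∀ (𝔫 : Ideal S₀), 𝔫.IsMaximal → σ (π₀ ⊗ₜ[W] (1 : B)) ∈ 𝔫 → ¬ IsNode₀ 𝔫 →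
      ∃ s ∈ 𝔫, ∀ y ∈ 𝔫, ∃ d : S₀, d ∉ 𝔫 ∧ d * y ∈ Ideal.span {σ (π₀ ⊗ₜ[W] (1 : B)), s}) :
    ∃ IsNode : Ideal (O ⊗[W] B) → Prop,
      (∀ q : B →ₐ[W] O, ¬ IsNode (redIdeal O q) → Module.Invertible (O ⊗[W] B) (ptIdeal q)) ∧
      ∀ (𝔫 : Ideal (O ⊗[W] B)) [𝔫.IsMaximal], IsNode 𝔫 →
        ∃ (v₁ v₂ : Localization.AtPrime 𝔫 → ℕ) (P₁ P₂ : Ideal (Localization.AtPrime 𝔫))
          (X Y : O ⊗[W] B),
          (∀ (g : G) (q : B →ₐ[W] O),
            ptEval ((τO g : O →ₐ[W] O).comp q) X = τO g (ptEval q X)) ∧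
          NodeData (Localization.AtPrime 𝔫) v₁ v₂ P₁ P₂
            (algebraMap O (Localization.AtPrime 𝔫) π)
            (algebraMap (O ⊗[W] B) (Localization.AtPrime 𝔫) X)
            (algebraMap (O ⊗[W] B) (Localization.AtPrime 𝔫) Y) e :=
  node_of_bc (mapOfEquiv (O := O) σ) (bcHyp_mapOfEquiv σ hBC) hirr hπ0 τO
    (fun g q s => ptEval_comp_tensorMap_of_fixed (τO g) (hτ g) q (σ.symm s)) hker IsNode₀ hN hS

/-- **The field `hSm1`, chart form.** -/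
theorem hSm1_of_bc_equiv (σ : (O₀ ⊗[W] B) ≃+* S₀) {π₀ : O₀} {π : O} {e : ℕ}
    (hBC : BCHyp (algebraMap O₀ O) π₀ π e) (hirr : Irreducible π)
    (hker : ∀ q : B →ₐ[W] O, ptIdeal q ≠ ⊥) (b : B)
    (hS : ∀ (𝔫 : Ideal S₀), 𝔫.IsMaximal → σ (π₀ ⊗ₜ[W] (1 : B)) ∈ 𝔫 →
      σ ((1 : O₀) ⊗ₜ[W] b) ∈ 𝔫 →
      ∃ s ∈ 𝔫, ∀ y ∈ 𝔫, ∃ d : S₀, d ∉ 𝔫 ∧ d * y ∈ Ideal.span {σ (π₀ ⊗ₜ[W] (1 : B)), s})
    (q : B →ₐ[W] O) (hq : q b ∈ IsLocalRing.maximalIdeal O) :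
    Module.Invertible (O ⊗[W] B) (ptIdeal q) :=
  hSm1_of_bc (mapOfEquiv (O := O) σ) (bcHyp_mapOfEquiv σ hBC) hirr hker
    (σ ((1 : O₀) ⊗ₜ[W] b)) b
    (by rw [mapOfEquiv_apply, tensorMap_tmul, map_one]) hS q hq

end Tensor

end Fermat.Agent.T1B.Level69.Node
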