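/-
Programme T1B (row 38 / S44), cell (I) NODE/PHI, leaf LEVEL-MODEL (helper69): **`Phi.LevelHyp` in ONE
statement**, from

* the chart data: `c0 : TwoChart W B0 B1 B01`, `B0`, `B1` flat of finite type over `W`, injective
  expansions `e_j : B_j →+* K((q))` (`K = Frac W`) which are not constant on some element, `hint0/1`;
* the generic fibre: `hinvL0/1` (Dedekind charts over `L`; helper1's `DescSep1.Gen`);
* the arithmetic of the level (LEVEL-ARITH, helper90): `hirr hcomp hres hU` and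
  `hBC : BCHyp (algebraMap O₀ O) π₀ π e` for a subring `O₀` fixed by all `τO g`;
* the thickness-one model facts on charts `S₀ ≃ O₀ ⊗[W] B0`, `S₁ ≃ O₀ ⊗[W] B1` over `O₀`
  (helper37's `NodeNF37.ThickOne`, `NodalNumData.smooth0/1`, `CuspOff30.nodes_in_U01_four`).
-/
import Mathlib
import Fermat.Agent.T1B.Node45.Phi
import Fermat.Agent.T1B.Level69.Node
import Fermat.Agent.T1B.Level69.Easy

set_option autoImplicit false
set_option linter.unusedSectionVars false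
set_option linter.style.haveILetI false

open TensorProduct

namespace Fermat.Agent.T1B.Level69.Pack

open Fermat.Agent.Jac Fermat.Agent.Jac.BaseChange75
open Fermat.Agent.T1.PtLine75 Fermat.Agent.T1.Peu37.NodeClassGroup
open Fermat.Agent.T1B.Desc43.IntModel Fermat.Agent.T1B.Node45.NodeBC
open Fermat.Agent.T1B.Node45.Phi Fermat.Agent.T1B.Level69.Node Fermat.Agent.T1B.Level69.Easy

universe u

variable {W B0 B1 B01 : Type u} [CommRing W] [CommRing B0] [CommRing B1] [CommRing B01]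
  [Algebra W B0] [Algebra W B1] [Algebra W B01] [Algebra B0 B01] [Algebra B1 B01]
  [IsScalarTower W B0 B01] [IsScalarTower W B1 B01]
  (c0 : TwoChart W B0 B1 B01)
  (O : Type u) [CommRing O] [IsDomain O] [IsDiscreteValuationRing O] [Algebra W O]
  (L : Type u) [Field L] [Algebra W L] [Algebra O L] [IsScalarTower W O L] [IsFractionRing O L]

/-- **`Phi.LevelHyp` from the chart data, the arithmetic of the level and the thickness-one model
facts over the inertial subring `O₀`.** -/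
theorem levelHyp_of {K : Type*} [Field K] [Algebra W K] [IsFractionRing W K] [Algebra K L]
    [IsScalarTower W K L]
    [Module.Flat W B0] [Module.Flat W B1] [Algebra.FiniteType W B0] [Algebra.FiniteType W B1]
    -- expansions
    (e0 : B0 →+* LaurentSeries K)
    (he0 : ∀ w : W, e0 (algebraMap W B0 w) = HahnSeries.C (algebraMap W K w))
    (hinj0 : Function.Injective e0)
    (e1 : B1 →+* LaurentSeries K)
    (he1 : ∀ w : W, e1 (algebraMap W B1 w) = HahnSeries.C (algebraMap W K w))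
    (hinj1 : Function.Injective e1)
    (hnc0 : ∃ (b : B0) (n : ℤ), n ≠ 0 ∧ (e0 b).coeff n ≠ 0)
    (hnc1 : ∃ (b : B1) (n : ℤ), n ≠ 0 ∧ (e1 b).coeff n ≠ 0)
    -- integrality and the generic fibre
    (hint0 : ∀ b : B0, IsIntegral (Algebra.adjoin W {c0.t}) b)
    (hint1 : ∀ b : B1, IsIntegral (Algebra.adjoin W {c0.s}) b)
    (hinvL0 : ∀ q : B0 →ₐ[W] L, Module.Invertible (L ⊗[W] B0) (ptIdeal q))
    (hinvL1 : ∀ q : B1 →ₐ[W] L, Module.Invertible (L ⊗[W] B1) (ptIdeal q))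
    -- the arithmetic of the level
    {π : O} (hirr : Irreducible π) {G : Type*} (τL : G → L ≃ₐ[W] L) (τO : G → O ≃ₐ[W] O)
    (hcomp : ∀ g a, τL g (algebraMap O L a) = algebraMap O L (τO g a))
    (hres : ∀ g a, τO g a - a ∈ IsLocalRing.maximalIdeal O)
    {e : ℕ} (hU : ∀ a : O, a ≠ 0 → (∀ g, τO g a = a) → ∃ m : ℕ, Associated a (π ^ (e * m)))
    -- the inertial subring
    {O₀ : Type u} [CommRing O₀] [Algebra W O₀] [Algebra O₀ O] [IsScalarTower W O₀ O] {π₀ : O₀}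
    (hBC : BCHyp (algebraMap O₀ O) π₀ π e)
    (hτ : ∀ (g : G) (a : O₀), τO g (algebraMap O₀ O a) = algebraMap O₀ O a)
    -- the charts over `O₀` and the thickness-one model facts
    {S₀ S₁ : Type*} [CommRing S₀] [IsDomain S₀] [CommRing S₁]
    (σ₀ : (O₀ ⊗[W] B0) ≃+* S₀) (σ₁ : (O₀ ⊗[W] B1) ≃+* S₁)
    (IsNode₀ : Ideal S₀ → Prop)
    (hN : ∀ (𝔫 : Ideal S₀) [𝔫.IsMaximal], σ₀ (π₀ ⊗ₜ[W] (1 : B0)) ∈ 𝔫 → IsNode₀ 𝔫 →
      ∃ (v₁ v₂ : Localization.AtPrime 𝔫 → ℕ) (P₁ P₂ : Ideal (Localization.AtPrime 𝔫))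
        (x y : S₀),
        NodeData (Localization.AtPrime 𝔫) v₁ v₂ P₁ P₂
          (algebraMap S₀ _ (σ₀ (π₀ ⊗ₜ[W] (1 : B0)))) (algebraMap S₀ _ x) (algebraMap S₀ _ y) 1)
    (hS0 : ∀ (𝔫 : Ideal S₀), 𝔫.IsMaximal → σ₀ (π₀ ⊗ₜ[W] (1 : B0)) ∈ 𝔫 → ¬ IsNode₀ 𝔫 →
      ∃ s ∈ 𝔫, ∀ y ∈ 𝔫, ∃ d : S₀, d ∉ 𝔫 ∧ d * y ∈ Ideal.span {σ₀ (π₀ ⊗ₜ[W] (1 : B0)), s})
    (hS1 : ∀ (𝔫 : Ideal S₁), 𝔫.IsMaximal → σ₁ (π₀ ⊗ₜ[W] (1 : B1)) ∈ 𝔫 →
      σ₁ ((1 : O₀) ⊗ₜ[W] c0.s) ∈ 𝔫 →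
      ∃ s ∈ 𝔫, ∀ y ∈ 𝔫, ∃ d : S₁, d ∉ 𝔫 ∧ d * y ∈ Ideal.span {σ₁ (π₀ ⊗ₜ[W] (1 : B1)), s}) :
    LevelHyp c0 O L π τL τO e := by
  have hO : Function.Injective (algebraMap O L) := IsFractionRing.injective O L
  haveI d0 : IsDomain (O ⊗[W] B0) := isDomain_tensor e0 he0 L hO hinj0
  haveI d1 : IsDomain (O ⊗[W] B1) := isDomain_tensor e1 he1 L hO hinj1
  haveI n0 : IsNoetherianRing (O ⊗[W] B0) := isNoetherianRing_tensor
  haveI n1 : IsNoetherianRing (O ⊗[W] B1) := isNoetherianRing_tensor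
  obtain ⟨b0, k0, hk0, hb0⟩ := hnc0
  obtain ⟨b1, k1, hk1, hb1⟩ := hnc1
  refine
    { ft0 := inferInstance
      dom0 := d0
      noeth0 := n0
      hint0 := hint0
      hint1 := hint1
      hinvL0 := hinvL0
      hinvL1 := hinvL1
      hirr := hirr
      hcomp := hcomp
      hres := hres
      hU := hU
      hSm1 := fun q hq =>
        hSm1_of_bc_equiv σ₁ hBC hirr (ptIdeal_ne_bot_of_exp e1 he1 L b1 k1 hk1 hb1) c0.s hS1 q hq
      node := node_of_bc_equiv σ₀ hBC hirr (tmul_one_ne_zero e0 he0 L hO hirr.ne_zero) τO hτ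
        (ptIdeal_ne_bot_of_exp e0 he0 L b0 k0 hk0 hb0) IsNode₀ hN hS0 }

end Fermat.Agent.T1B.Level69.Pack
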