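/-
Programme T1B (row 38 / S44), cell (I) NODE/PHI, leaf LEVEL-MODEL (helper69): **`Phi.LevelHyp` for the
hub of a nodal two-chart model over a DVR** (`Pack.levelHyp_of` with all chart-side inputs discharged).

`W` a DVR with fraction field `K` of characteristic `0`, `F` a field over `K` with an injective
expansion `e : F →+* K((q))`, `M : NodalTwoChartModel W F π t B0 B1 O1 O2`, `ht : IsGen K t`.
For a DVR `O` over `W` with fraction field `L ⊇ K`:

* `flat_chart`, `eChart`, `eChart_const`, `eChart_injective`, `exists_coeff_ne_zero` : the chart-side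
  inputs (flatness, expansions, a non-constant expansion);
* `hint0_nodal`, `hint1_nodal`, `hinvL0_nodal`, `hinvL1_nodal` : the fields `hint0 hint1 hinvL0 hinvL1`;
* **`levelHyp_nodalModel`** : `Phi.LevelHyp (nodalChart M) O L πO τL τO e` from the arithmetic of the
  level (`hirr hcomp hres hU`, `hBC`, `hτ`) and the thickness-one facts on charts over `O₀`.
-/
import Mathlib
import Fermat.Agent.T1B.Level69.Pack
import Fermat.Agent.T1B.DescSep1.NodalModelDvr
import Fermat.Agent.T1B.AD69.Setting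
import Fermat.Agent.T1.ModelFacts62.Chart
import Fermat.Agent.T1B.Desc8.DescAt

set_option autoImplicit false
set_option linter.unusedSectionVars false
set_option linter.style.haveILetI false

open TensorProduct

namespace Fermat.Agent.T1B.Level69.Model

open HahnSeries ModularCurve
open Fermat.Agent.Jac Fermat.Agent.Jac.BaseChange75 Fermat.Agent.X0.FF
open Fermat.Agent.T1.PtLine75 Fermat.Agent.T1.Peu37.NodeClassGroup
open Fermat.Agent.T1B.NodalFacts23 Fermat.Agent.ES.N34.NodalCore13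
open Fermat.Agent.T1B.Node45.NodeBC Fermat.Agent.T1B.Node45.Phi
open Fermat.Agent.T1B.DescSep1 Fermat.Agent.T1B.DescSep1.NodalFinType
open Fermat.Agent.T1.Coh60 (algebra0 algebra1 isScalarTower0 isScalarTower1)

attribute [local instance] algebra0 algebra1 isScalarTower0 isScalarTower1

universe u

section Chart

variable {W F : Type*} {K : Type*} [CommRing W] [IsDomain W] [Field K] [Algebra W K]
  [IsFractionRing W K] [Field F] [Algebra K F] [Algebra W F] [IsScalarTower W K F]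
  (e : F →+* LaurentSeries K) (he : ∀ c : K, e (algebraMap K F c) = HahnSeries.C c)

/-- The expansion of a subalgebra chart. -/
noncomputable def eChart (B : Subalgebra W F) : ↥B →+* LaurentSeries K :=
  e.comp (B.val : ↥B →+* F)

theorem eChart_apply (B : Subalgebra W F) (b : ↥B) : eChart e B b = e (b : F) := rfl

theorem eChart_injective (hinj : Function.Injective e) (B : Subalgebra W F) :
    Function.Injective (eChart e B) :=
  hinj.comp Subtype.val_injective

include he in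
theorem eChart_const (B : Subalgebra W F) (w : W) :
    eChart e B (algebraMap W ↥B w) = HahnSeries.C (algebraMap W K w) := by
  rw [eChart_apply, Subalgebra.coe_algebraMap, IsScalarTower.algebraMap_apply W K F, he]

/-- Subalgebra charts are flat over a Bezout domain (e.g. a DVR). -/
theorem flat_chart {W F : Type*} (K : Type*) [CommRing W] [IsDomain W] [Field K] [Algebra W K]
    [IsFractionRing W K] [Field F] [Algebra K F] [Algebra W F] [IsScalarTower W K F]
    [IsBezout W] (B : Subalgebra W F) : Module.Flat W ↥B :=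
  Fermat.Agent.T1B.AD69.flat_of_injective (W := W) (K := K) (B := ↥B) (D := F)
    (IsFractionRing.injective W K) (B.val : ↥B →+* F)
    (fun w => by
      show ((algebraMap W ↥B w : ↥B) : F) = _
      rw [Subalgebra.coe_algebraMap, IsScalarTower.algebraMap_apply W K F])
    Subtype.val_injective

include he in
/-- A transcendental element has a non-constant expansion. -/
theorem exists_coeff_ne_zero (hinj : Function.Injective e) {x : F} (hx : Transcendental K x) :
    ∃ n : ℤ, n ≠ 0 ∧ (e x).coeff n ≠ 0 := by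
  by_contra hcon
  push Not at hcon
  apply hx
  have h1 : e x = HahnSeries.C ((e x).coeff 0) := by
    ext n
    by_cases hn : n = 0
    · subst hn
      rw [HahnSeries.C_apply, HahnSeries.coeff_single_same]
    · rw [HahnSeries.C_apply, HahnSeries.coeff_single_of_ne hn]
      exact hcon n hn
  have h2 : x = algebraMap K F ((e x).coeff 0) := hinj (by rw [he, ← h1])
  rw [h2]
  exact isAlgebraic_algebraMap _

end Chart

section Fields

variable {W F : Type u} {K : Type*} [CommRing W] [IsDomain W] [IsDiscreteValuationRing W]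
  [Field K] [CharZero K]
  [Algebra W K] [IsFractionRing W K] [Field F] [Algebra K F] [Algebra W F] [IsScalarTower W K F]
  (e : F →+* LaurentSeries K) (he : ∀ c : K, e (algebraMap K F c) = HahnSeries.C c)
  (hinj : Function.Injective e)
  {π : W} {t : F} {B0 B1 : Subalgebra W F} {O1 O2 : ValuationSubring F}
  (M : NodalTwoChartModel W F π t B0 B1 O1 O2)

theorem hint0_nodal (b : ↥B0) : IsIntegral (Algebra.adjoin W {(nodalChart M).t}) b :=
  Fermat.Agent.T1.ModelFacts62.isIntegral_adjoin_subtype B0 M.t_mem b (M.int0 b b.2)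

theorem hint1_nodal (b : ↥B1) : IsIntegral (Algebra.adjoin W {(nodalChart M).s}) b :=
  Fermat.Agent.T1.ModelFacts62.isIntegral_adjoin_subtype B1 M.tinv_mem b (M.int1 b b.2)

variable (L : Type u) [Field L] [Algebra K L] [Algebra W L] [IsScalarTower W K L]

include e he hinj M in
theorem hinvL0_nodal (ht : IsGen K t) (q : ↥B0 →ₐ[W] L) :
    Module.Invertible (L ⊗[W] ↥B0) (ptIdeal q) :=
  haveI := Dvr.isDedekindDomain_nodalChart0 e he hinj L M ht
  Fermat.Agent.T1B.Desc8.DescAt.invertible_ptIdeal_of_isDedekindDomain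
    (Dvr.not_isField_nodalChart0 L M ht) q

include e he hinj M in
theorem hinvL1_nodal (ht : IsGen K t) (q : ↥B1 →ₐ[W] L) :
    Module.Invertible (L ⊗[W] ↥B1) (ptIdeal q) :=
  haveI := Dvr.isDedekindDomain_nodalChart1 e he hinj L M ht
  Fermat.Agent.T1B.Desc8.DescAt.invertible_ptIdeal_of_isDedekindDomain
    (Dvr.not_isField_nodalChart1 L M ht) q

end Fields

section Main

variable {W F : Type u} {K : Type*} [CommRing W] [IsDomain W] [IsDiscreteValuationRing W]
  [Field K] [CharZero K]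
  [Algebra W K] [IsFractionRing W K] [Field F] [Algebra K F] [Algebra W F] [IsScalarTower W K F]
  (e : F →+* LaurentSeries K) (he : ∀ c : K, e (algebraMap K F c) = HahnSeries.C c)
  (hinj : Function.Injective e)
  {π : W} {t : F} {B0 B1 : Subalgebra W F} {O1 O2 : ValuationSubring F}
  (M : NodalTwoChartModel W F π t B0 B1 O1 O2) (ht : IsGen K t)
  (O : Type u) [CommRing O] [IsDomain O] [IsDiscreteValuationRing O] [Algebra W O]
  (L : Type u) [Field L] [Algebra W L] [Algebra O L] [IsScalarTower W O L] [IsFractionRing O L]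
  [Algebra K L] [IsScalarTower W K L]

include e he hinj ht in
/-- **`Phi.LevelHyp` for the hub of a nodal two-chart model over a DVR.** -/
theorem levelHyp_nodalModel
    -- the arithmetic of the level
    {πO : O} (hirr : Irreducible πO) {G : Type*} (τL : G → L ≃ₐ[W] L) (τO : G → O ≃ₐ[W] O)
    (hcomp : ∀ g a, τL g (algebraMap O L a) = algebraMap O L (τO g a))
    (hres : ∀ g a, τO g a - a ∈ IsLocalRing.maximalIdeal O)
    {eO : ℕ} (hU : ∀ a : O, a ≠ 0 → (∀ g, τO g a = a) → ∃ m : ℕ, Associated a (πO ^ (eO * m)))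
    -- the inertial subring
    {O₀ : Type u} [CommRing O₀] [Algebra W O₀] [Algebra O₀ O] [IsScalarTower W O₀ O] {π₀ : O₀}
    (hBC : BCHyp (algebraMap O₀ O) π₀ πO eO)
    (hτ : ∀ (g : G) (a : O₀), τO g (algebraMap O₀ O a) = algebraMap O₀ O a)
    -- the charts over `O₀` and the thickness-one model facts
    {S₀ S₁ : Type*} [CommRing S₀] [IsDomain S₀] [CommRing S₁]
    (σ₀ : (O₀ ⊗[W] ↥B0) ≃+* S₀) (σ₁ : (O₀ ⊗[W] ↥B1) ≃+* S₁)
    (IsNode₀ : Ideal S₀ → Prop)
    (hN : ∀ (𝔫 : Ideal S₀) [𝔫.IsMaximal], σ₀ (π₀ ⊗ₜ[W] (1 : ↥B0)) ∈ 𝔫 → IsNode₀ 𝔫 →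
      ∃ (v₁ v₂ : Localization.AtPrime 𝔫 → ℕ) (P₁ P₂ : Ideal (Localization.AtPrime 𝔫))
        (x y : S₀),
        NodeData (Localization.AtPrime 𝔫) v₁ v₂ P₁ P₂
          (algebraMap S₀ _ (σ₀ (π₀ ⊗ₜ[W] (1 : ↥B0)))) (algebraMap S₀ _ x) (algebraMap S₀ _ y) 1)
    (hS0 : ∀ (𝔫 : Ideal S₀), 𝔫.IsMaximal → σ₀ (π₀ ⊗ₜ[W] (1 : ↥B0)) ∈ 𝔫 → ¬ IsNode₀ 𝔫 →
      ∃ s ∈ 𝔫, ∀ y ∈ 𝔫, ∃ d : S₀, d ∉ 𝔫 ∧ d * y ∈ Ideal.span {σ₀ (π₀ ⊗ₜ[W] (1 : ↥B0)), s})
    (hS1 : ∀ (𝔫 : Ideal S₁), 𝔫.IsMaximal → σ₁ (π₀ ⊗ₜ[W] (1 : ↥B1)) ∈ 𝔫 →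
      σ₁ ((1 : O₀) ⊗ₜ[W] (⟨t⁻¹, M.tinv_mem⟩ : ↥B1)) ∈ 𝔫 →
      ∃ s ∈ 𝔫, ∀ y ∈ 𝔫, ∃ d : S₁, d ∉ 𝔫 ∧ d * y ∈ Ideal.span {σ₁ (π₀ ⊗ₜ[W] (1 : ↥B1)), s}) :
    LevelHyp (W := W) (B0 := ↥B0) (B1 := ↥B1) (B01 := ↥(B0 ⊔ B1)) (nodalChart M) O L πO τL τO eO := by
  haveI := flat_chart K B0
  haveI := flat_chart K B1
  haveI := finiteType_chart0 (K := K) M ht
  haveI := finiteType_chart1 (K := K) M ht
  have htr' : Transcendental K t⁻¹ := fun h => ht.transcendental (IsAlgebraic.inv_iff.1 h)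
  obtain ⟨n0, hn0, hc0⟩ := exists_coeff_ne_zero e he hinj ht.transcendental
  obtain ⟨n1, hn1, hc1⟩ := exists_coeff_ne_zero e he hinj htr'
  exact Fermat.Agent.T1B.Level69.Pack.levelHyp_of (W := W) (B0 := ↥B0) (B1 := ↥B1)
    (B01 := ↥(B0 ⊔ B1)) (K := K) (nodalChart M) O L
    (eChart e B0) (eChart_const e he B0) (eChart_injective e hinj B0)
    (eChart e B1) (eChart_const e he B1) (eChart_injective e hinj B1)
    ⟨⟨t, M.t_mem⟩, n0, hn0, hc0⟩ ⟨⟨t⁻¹, M.tinv_mem⟩, n1, hn1, hc1⟩
    (hint0_nodal M) (hint1_nodal M)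
    (hinvL0_nodal e he hinj M L ht) (hinvL1_nodal e he hinj M L ht)
    hirr τL τO hcomp hres hU hBC hτ σ₀ σ₁ IsNode₀ hN hS0 hS1

end Main

end Fermat.Agent.T1B.Level69.Model
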